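import Fermat.Agent.S52.H297.Manin

/-!
# Point count of `y² = f(x)` over a finite field and Manin's lemma for Weierstrass curves

* `card_solutions` : `#{(x,y) ∈ F² | y² = f(x)} = #Z + 2 #SQ`.
* `hgt_maninR_eq_card` : `hgt R = 1 + #{(x,y) | y² = f(x)}`.
* `hgt_maninR_eq_card_point` : for a Weierstrass curve `W` over `F` with `a₁ = a₃ = 0`, `Δ ≠ 0`:
  `hgt (maninR W.a₂ W.a₄ W.a₆) = Nat.card W.toAffine.Point`.
-/

set_option autoImplicit false
set_option linter.unusedSectionVars false

open Polynomial

namespace Fermat.Agent.S52.H297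

section Count

variable {F : Type*} [Field F] [Fintype F] [DecidableEq F]

/-- number of square roots of `a` in a finite field of odd characteristic -/
lemma card_sqrt (hF : ringChar F ≠ 2) (a : F) :
    (Finset.univ.filter fun y : F => y ^ 2 = a).card =
      if a = 0 then 1 else if a ^ (Fintype.card F / 2) = 1 then 2 else 0 := by
  by_cases ha : a = 0
  · subst ha
    rw [if_pos rfl]
    have : (Finset.univ.filter fun y : F => y ^ 2 = 0) = {0} := by
      ext y
      simp
    rw [this, Finset.card_singleton]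
  · rw [if_neg ha]
    by_cases hsq : a ^ (Fintype.card F / 2) = 1
    · rw [if_pos hsq]
      obtain ⟨b, hb⟩ := (FiniteField.isSquare_iff hF ha).mpr hsq
      have hb0 : b ≠ 0 := by
        rintro rfl
        exact ha (by simpa using hb)
      have hne : b ≠ -b := by
        intro h
        have h2 : (2 : F) * b = 0 := by
          have : b + b = 0 := by nth_rewrite 2 [h]; simp
          rw [two_mul]; exact this
        rcases mul_eq_zero.mp h2 with h3 | h3
        · exact two_ne_zero_of_char hF h3
        · exact hb0 h3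
      have : (Finset.univ.filter fun y : F => y ^ 2 = a) = {b, -b} := by
        ext y
        simp only [Finset.mem_filter, Finset.mem_univ, true_and, Finset.mem_insert,
          Finset.mem_singleton]
        rw [hb, ← sq, sq_eq_sq_iff_eq_or_eq_neg]
      rw [this, Finset.card_pair hne]
    · rw [if_neg hsq]
      rw [Finset.card_eq_zero, Finset.filter_eq_empty_iff]
      intro y _ hy
      apply hsq
      rw [← FiniteField.isSquare_iff hF ha]
      exact ⟨y, by rw [← hy, sq]⟩

variable (a₂ a₄ a₆ : F)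

/-- The number of affine solutions of `y² = f(x)`. -/
theorem card_solutions (hF : ringChar F ≠ 2) :
    Nat.card {p : F × F // p.2 ^ 2 = (cubic a₂ a₄ a₆).eval p.1} =
      (rootSet a₂ a₄ a₆).card + 2 * (sqSet a₂ a₄ a₆).card := by
  classical
  rw [Nat.card_eq_fintype_card, Fintype.card_subtype]
  -- count fibrewise
  have h1 : (Finset.univ.filter fun p : F × F => p.2 ^ 2 = (cubic a₂ a₄ a₆).eval p.1).card
      = ∑ c : F, (Finset.univ.filter fun y : F => y ^ 2 = (cubic a₂ a₄ a₆).eval c).card := by
    rw [Finset.card_eq_sum_card_fiberwise (f := fun p : F × F => p.1)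
      (t := Finset.univ) (fun _ _ => Finset.mem_univ _)]
    refine Finset.sum_congr rfl fun c _ => ?_
    refine Finset.card_bij (fun p _ => p.2) ?_ ?_ ?_
    · intro p hp
      simp only [Finset.mem_filter, Finset.mem_univ, true_and] at hp ⊢
      rw [← hp.2]; exact hp.1
    · intro p hp p' hp' h
      simp only [Finset.mem_filter, Finset.mem_univ, true_and] at hp hp'
      exact Prod.ext (hp.2.trans hp'.2.symm) h
    · intro y hy
      simp only [Finset.mem_filter, Finset.mem_univ, true_and] at hy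
      exact ⟨(c, y), by simp [hy], rfl⟩
  rw [h1]
  simp_rw [card_sqrt hF]
  rw [← union_eq_univ (a₂ := a₂) (a₄ := a₄) (a₆ := a₆) hF]
  rw [Finset.sum_union (by
      rw [Finset.disjoint_union_right]
      exact ⟨disjoint_root_sq hF, disjoint_root_ns hF⟩),
    Finset.sum_union (disjoint_sq_ns hF)]
  have e1 : ∑ c ∈ rootSet a₂ a₄ a₆, (if (cubic a₂ a₄ a₆).eval c = 0 then 1
      else if (cubic a₂ a₄ a₆).eval c ^ (Fintype.card F / 2) = 1 then 2 else 0)
      = (rootSet a₂ a₄ a₆).card := by
    rw [Finset.card_eq_sum_ones]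
    refine Finset.sum_congr rfl fun c hc => ?_
    rw [if_pos (mem_rootSet.mp hc)]
  have e2 : ∑ c ∈ sqSet a₂ a₄ a₆, (if (cubic a₂ a₄ a₆).eval c = 0 then 1
      else if (cubic a₂ a₄ a₆).eval c ^ (Fintype.card F / 2) = 1 then 2 else 0)
      = 2 * (sqSet a₂ a₄ a₆).card := by
    rw [Finset.card_eq_sum_ones, Finset.mul_sum]
    refine Finset.sum_congr rfl fun c hc => ?_
    have h := mem_sqSet.mp hc
    have h0 : (cubic a₂ a₄ a₆).eval c ≠ 0 := by
      intro h0
      rw [h0, zero_pow (half_card_pos hF).ne'] at h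
      exact zero_ne_one h
    rw [if_neg h0, if_pos h, mul_one]
  have e3 : ∑ c ∈ nsSet a₂ a₄ a₆, (if (cubic a₂ a₄ a₆).eval c = 0 then 1
      else if (cubic a₂ a₄ a₆).eval c ^ (Fintype.card F / 2) = 1 then 2 else 0)
      = 0 := by
    refine Finset.sum_eq_zero fun c hc => ?_
    have h := mem_nsSet.mp hc
    have h0 : (cubic a₂ a₄ a₆).eval c ≠ 0 := by
      intro h0
      rw [h0, zero_pow (half_card_pos hF).ne'] at h
      have : (1 : F) = 0 := by
        have := congrArg Neg.neg h
        simpa using this.symm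
      exact one_ne_zero this
    have h1 : (cubic a₂ a₄ a₆).eval c ^ (Fintype.card F / 2) ≠ 1 := by
      rw [h]
      exact fun h' => one_ne_neg_one_of_char hF h'.symm
    rw [if_neg h0, if_neg h1]
  rw [e1, e2, e3, add_zero]

/-- **Manin's counting lemma**: the height of `x(Frob P₀ - P₀)` is the number of points. -/
theorem hgt_maninR_eq_card (hF : ringChar F ≠ 2)
    (hsimple : ∀ c : F, (cubic a₂ a₄ a₆).eval c = 0 →
      (derivative (cubic a₂ a₄ a₆)).eval c ≠ 0) :
    hgt (maninR a₂ a₄ a₆) =
      1 + Nat.card {p : F × F // p.2 ^ 2 = (cubic a₂ a₄ a₆).eval p.1} := by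
  rw [hgt_maninR hF hsimple, card_solutions a₂ a₄ a₆ hF, add_assoc]

end Count

section Weierstrass

variable {F : Type*} [Field F] [Fintype F] [DecidableEq F]

lemma eval_cubic (a₂ a₄ a₆ x : F) :
    (cubic a₂ a₄ a₆).eval x = x ^ 3 + a₂ * x ^ 2 + a₄ * x + a₆ := by
  simp [cubic]

lemma eval_derivative_cubic (a₂ a₄ a₆ x : F) :
    (derivative (cubic a₂ a₄ a₆)).eval x = 3 * x ^ 2 + 2 * a₂ * x + a₄ := by
  simp [cubic]
  ring

/-- points of a Weierstrass curve with `a₁ = a₃ = 0`, `Δ ≠ 0`, are `O` and the solutions of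
`y² = f(x)` -/
noncomputable def pointEquiv (W : WeierstrassCurve F) (h₁ : W.a₁ = 0) (h₃ : W.a₃ = 0)
    (hΔ : W.Δ ≠ 0) :
    W.toAffine.Point ≃ Option {p : F × F // p.2 ^ 2 = (cubic W.a₂ W.a₄ W.a₆).eval p.1} where
  toFun P := match P with
    | .zero => none
    | .some x y h => some ⟨(x, y), by
        have := (WeierstrassCurve.Affine.equation_iff x y).mp h.1
        rw [eval_cubic]
        simpa [h₁, h₃] using this⟩
  invFun o := match o with
    | none => .zero
    | some p => .some p.1.1 p.1.2 (by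
        rw [← WeierstrassCurve.Affine.equation_iff_nonsingular_of_Δ_ne_zero (W := W.toAffine) hΔ,
          WeierstrassCurve.Affine.equation_iff]
        have := p.2
        rw [eval_cubic] at this
        simpa [h₁, h₃] using this)
  left_inv P := by
    cases P <;> rfl
  right_inv o := by
    cases o <;> rfl

lemma simple_roots_of_Δ_ne_zero (W : WeierstrassCurve F) (h₁ : W.a₁ = 0) (h₃ : W.a₃ = 0)
    (hΔ : W.Δ ≠ 0) (c : F) (hc : (cubic W.a₂ W.a₄ W.a₆).eval c = 0) :
    (derivative (cubic W.a₂ W.a₄ W.a₆)).eval c ≠ 0 := by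
  have heq : W.toAffine.Equation c 0 := by
    rw [WeierstrassCurve.Affine.equation_iff]
    rw [eval_cubic] at hc
    simp [h₁, h₃, hc]
  have hns := (WeierstrassCurve.Affine.equation_iff_nonsingular_of_Δ_ne_zero
    (W := W.toAffine) hΔ).mp heq
  rw [WeierstrassCurve.Affine.nonsingular_iff] at hns
  rcases hns.2 with h | h
  · rw [eval_derivative_cubic]
    intro h0
    apply h
    simp [h₁, h0]
  · exfalso
    apply h
    simp [h₁, h₃]

/-- **Manin's counting lemma for Weierstrass curves** `y² = x³ + a₂x² + a₄x + a₆` over a finite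
field of odd characteristic. -/
theorem hgt_maninR_eq_card_point (hF : ringChar F ≠ 2) (W : WeierstrassCurve F)
    (h₁ : W.a₁ = 0) (h₃ : W.a₃ = 0) (hΔ : W.Δ ≠ 0) :
    hgt (maninR W.a₂ W.a₄ W.a₆) = Nat.card W.toAffine.Point := by
  rw [hgt_maninR_eq_card W.a₂ W.a₄ W.a₆ hF (simple_roots_of_Δ_ne_zero W h₁ h₃ hΔ),
    Nat.card_congr (pointEquiv W h₁ h₃ hΔ)]
  rw [Nat.card_eq_fintype_card, Nat.card_eq_fintype_card, Fintype.card_option, add_comm]

end Weierstrass

end Fermat.Agent.S52.H297
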