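import Fermat.Agent.S52.H297.MFinal
import Fermat.Agent.Lib.Frob.A2.H240.ShortNF

/-!
# Piece A2 of row S52: `FrobRelationFin` (helper297 assembly)

* `frobPsi_eq_zero_short` : for a finite field `F` of odd characteristic and
  `W : y² = x³ + a₂x² + a₄x + a₆` over `F` with `Δ ≠ 0`: `Φ² - (q + 1 - #W(F)) Φ + q = 0` on
  `W(L)` for every field `L ⊇ F`.
* `frobRelationFinShort : FrobRelationFinShort`, `frobRelationFin : FrobRelationFin`.

Ingredients: helper720 (exact parallelogram law), helper127 (quadratic-form algebra),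
helper230 (generic point ⇒ all points), helper240 (long ↔ short form), helper297 (Manin's
degree calculus, the group `M`, assembly).
-/

set_option autoImplicit false

open Polynomial WeierstrassCurve
open scoped WeierstrassCurve.Affine

namespace Fermat.Agent.S52.H297

open Fermat.Agent.Lib.FrobRel.H230 (frobPt frobPsi)

/-- **Hasse–Weil relation over a finite field of odd characteristic** (Manin's elementary
proof), for curves `y² = x³ + a₂x² + a₄x + a₆`. -/
theorem frobPsi_eq_zero_short {F : Type*} [Field F] [Fintype F] (hF : ringChar F ≠ 2)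
    (W : WeierstrassCurve F) (h₁ : W.a₁ = 0) (h₃ : W.a₃ = 0) (hΔ : W.Δ ≠ 0)
    {L : Type*} [Field L] [Algebra F L] [DecidableEq L] (T : (W⁄L).Point) :
    frobPsi W L ((Fintype.card F : ℤ) + 1 - (Nat.card W.toAffine.Point : ℤ)) T = 0 := by
  classical
  obtain ⟨y, hy⟩ := IsAlgClosed.exists_pow_nat_eq
    ((IsScalarTower.toAlgHom F (RatFunc F) (AlgebraicClosure (RatFunc F)))
      (algebraMap F[X] (RatFunc F) (cubic W.a₂ W.a₄ W.a₆))) (n := 2) (by norm_num)
  exact frobPsi_eq_zero_of_setup (K := AlgebraicClosure (RatFunc F))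
    (ι := IsScalarTower.toAlgHom F (RatFunc F) (AlgebraicClosure (RatFunc F))) (y := y)
    ⟨h₁, h₃, hy⟩ hF hΔ T

open Fermat.Agent.Lib.Frob Fermat.Agent.Lib.Frob.A2.H240 in
/-- Piece A2 for short Weierstrass curves over `𝔽_ℓ`, `ℓ ≥ 5`. -/
theorem frobRelationFinShort : FrobRelationFinShort := by
  intro ℓ _ hℓ E h₁ _ h₃ hΔ k _ _ _ P
  have hF : ringChar (ZMod ℓ) ≠ 2 := by
    rw [ZMod.ringChar_zmod_n]
    omega
  have key := frobPsi_eq_zero_short hF E h₁ h₃ hΔ (L := k) P
  rw [Fermat.Agent.Lib.FrobRel.H230.frobPsi_apply, ZMod.card] at key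
  have ha : E.traceOfFrobenius = (ℓ : ℤ) + 1 - (Nat.card E.toAffine.Point : ℤ) := by
    unfold WeierstrassCurve.traceOfFrobenius WeierstrassCurve.card
    rw [Nat.card_eq_fintype_card, ZMod.card]
  rw [ha]
  exact key

open Fermat.Agent.Lib.Frob Fermat.Agent.Lib.Frob.A2.H240 in
/-- **Piece A2** of row S52: the Hasse–Weil relation `Φ² - a_ℓ Φ + ℓ = 0` over `𝔽_ℓ`, `ℓ ≥ 5`. -/
theorem frobRelationFin : FrobRelationFin :=
  frobRelationFin_of_short frobRelationFinShort

end Fermat.Agent.S52.H297
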