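import Mathlib

/-!
# Height (degree) of a rational function, and its multiplicativity under composition

`hgt g = max (natDegree g.num) (natDegree g.denom)`.

Main results:
* `hgt_div_of_isCoprime` : for coprime `p q`, `q ≠ 0`, `hgt (p / q) = max (deg p) (deg q)`.
* `hgt_eq_finrank` : `hgt g = [K(X) : K(g)]` (Mathlib's `RatFunc.finrank_eq_max_natDegree`).
* `subst S hS` : the `K`-algebra endomorphism `X ↦ S` of `K(X)` for a non-constant `S`.
* `hgt_subst` : `hgt (subst S hS R) = hgt R * hgt S`.
* `hgt_aeval_div` : for coprime polynomials `N D`, `D ≠ 0` and non-constant `S`: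
  `hgt (N(S) / D(S)) = max (deg N) (deg D) * hgt S`.
-/

set_option autoImplicit false

open Polynomial

namespace Fermat.Agent.S52.H297

variable {K : Type*} [Field K]

/-- The height of a rational function: the maximum of the degrees of numerator and denominator
(in lowest terms). -/
noncomputable def hgt (g : RatFunc K) : ℕ := max g.num.natDegree g.denom.natDegree

lemma hgt_eq_finrank (g : RatFunc K) :
    hgt g = Module.finrank (IntermediateField.adjoin K {g}) (RatFunc K) :=
  (RatFunc.finrank_eq_max_natDegree g).symm

lemma hgt_C (c : K) : hgt (RatFunc.C c : RatFunc K) = 0 := by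
  simp [hgt]

lemma hgt_X : hgt (RatFunc.X : RatFunc K) = 1 := by
  simp [hgt]

/-- Height of a quotient of coprime polynomials. -/
lemma hgt_div_of_isCoprime {p q : K[X]} (hq : q ≠ 0) (h : IsCoprime p q) :
    hgt (algebraMap K[X] (RatFunc K) p / algebraMap K[X] (RatFunc K) q) =
      max p.natDegree q.natDegree := by
  classical
  have hg : gcd p q = 1 := by
    have h1 : IsUnit (gcd p q) := by
      rw [← gcd_isUnit_iff] at h
      exact h
    have h2 := normalize_gcd p q
    rw [← h2]
    exact normalize_eq_one.mpr h1
  have hlc : (q.leadingCoeff)⁻¹ ≠ 0 := inv_ne_zero (leadingCoeff_ne_zero.mpr hq)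
  unfold hgt
  rw [RatFunc.num_div, RatFunc.denom_div _ hq, hg, EuclideanDomain.div_one,
    EuclideanDomain.div_one, natDegree_C_mul hlc, natDegree_C_mul hlc]

lemma transcendental_of_hgt_ne_zero {S : RatFunc K} (hS : hgt S ≠ 0) :
    Transcendental K S := by
  apply RatFunc.transcendental_of_ne_C
  rintro ⟨c, rfl⟩
  exact hS (hgt_C c)

/-- Substitution `X ↦ S` as a `K`-algebra endomorphism of `K(X)` (for non-constant `S`). -/
noncomputable def subst (S : RatFunc K) (hS : hgt S ≠ 0) : RatFunc K →ₐ[K] RatFunc K :=
  RatFunc.liftAlgHom (Polynomial.aeval S)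
    (nonZeroDivisors_le_comap_nonZeroDivisors_of_injective _
      ((transcendental_iff_injective).mp (transcendental_of_hgt_ne_zero hS)))

lemma subst_algebraMap (S : RatFunc K) (hS : hgt S ≠ 0) (p : K[X]) :
    subst S hS (algebraMap K[X] (RatFunc K) p) = Polynomial.aeval S p := by
  have := RatFunc.liftAlgHom_apply_div (Polynomial.aeval S)
    (nonZeroDivisors_le_comap_nonZeroDivisors_of_injective _
      ((transcendental_iff_injective).mp (transcendental_of_hgt_ne_zero hS))) p 1
  simpa [subst] using this

lemma subst_X (S : RatFunc K) (hS : hgt S ≠ 0) : subst S hS RatFunc.X = S := by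
  have := subst_algebraMap S hS (Polynomial.X)
  simpa using this

lemma subst_div (S : RatFunc K) (hS : hgt S ≠ 0) (p q : K[X]) :
    subst S hS (algebraMap K[X] (RatFunc K) p / algebraMap K[X] (RatFunc K) q) =
      Polynomial.aeval S p / Polynomial.aeval S q := by
  rw [map_div₀, subst_algebraMap, subst_algebraMap]

/-- **Multiplicativity of the height under composition.** -/
theorem hgt_subst (R S : RatFunc K) (hS : hgt S ≠ 0) :
    hgt (subst S hS R) = hgt R * hgt S := by
  set φ := subst S hS with hφ
  -- the three intermediate fields `K(φ R) ≤ K(S) ≤ ⊤`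
  have hmapR : (IntermediateField.adjoin K {R}).map φ = IntermediateField.adjoin K {φ R} := by
    rw [IntermediateField.adjoin_map]; simp
  have hmapTop : (⊤ : IntermediateField K (RatFunc K)).map φ = IntermediateField.adjoin K {S} := by
    rw [← RatFunc.adjoin_X, IntermediateField.adjoin_map]; simp [hφ, subst_X]
  have hle : IntermediateField.adjoin K {φ R} ≤ IntermediateField.adjoin K {S} := by
    rw [← hmapR, ← hmapTop]
    exact IntermediateField.map_mono φ le_top
  have h1 : IntermediateField.relfinrank (IntermediateField.adjoin K {φ R})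
      (IntermediateField.adjoin K {S}) = hgt R := by
    rw [← hmapR, ← hmapTop, IntermediateField.relfinrank_map_map,
      IntermediateField.relfinrank_top_right, hgt_eq_finrank]
  have h2 : IntermediateField.relfinrank (IntermediateField.adjoin K {S}) ⊤ = hgt S := by
    rw [IntermediateField.relfinrank_top_right, hgt_eq_finrank]
  have h3 := IntermediateField.relfinrank_mul_relfinrank hle
    (le_top : IntermediateField.adjoin K {S} ≤ ⊤)
  rw [h1, h2, IntermediateField.relfinrank_top_right, ← hgt_eq_finrank] at h3
  exact h3.symm

/-- Height of `N(S)/D(S)` for coprime polynomials `N`, `D` and a non-constant `S`. -/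
theorem hgt_aeval_div {N D : K[X]} (hD : D ≠ 0) (hND : IsCoprime N D) (S : RatFunc K)
    (hS : hgt S ≠ 0) :
    hgt (Polynomial.aeval S N / Polynomial.aeval S D) =
      max N.natDegree D.natDegree * hgt S := by
  rw [← subst_div S hS, hgt_subst, hgt_div_of_isCoprime hD hND]

/-- General version: height of `N(S)/D(S)` for arbitrary polynomials `N`, `D ≠ 0`, in terms of the
height of the rational function `N/D`. -/
theorem hgt_aeval_div' (N D : K[X]) (S : RatFunc K) (hS : hgt S ≠ 0) :
    hgt (Polynomial.aeval S N / Polynomial.aeval S D) =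
      hgt (algebraMap K[X] (RatFunc K) N / algebraMap K[X] (RatFunc K) D) * hgt S := by
  rw [← subst_div S hS, hgt_subst]

end Fermat.Agent.S52.H297
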