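import Fermat.Agent.S52.H297.MFrob
import Fermat.Agent.S52.H127.QuadForm

/-!
# The Frobenius relation over a finite field of odd characteristic (Manin's elementary proof)

`F` a finite field with `q` elements, `q` odd, `W : y² = x³ + a₂x² + a₄x + a₆` over `F` with
`Δ ≠ 0`.  Then `Φ² - a Φ + q = 0` on `W(L)` for every field `L ⊇ F`, where `Φ` is the `q`-power
Frobenius and `a = q + 1 - #W(F)`.
-/

set_option autoImplicit false
set_option linter.unusedSectionVars false

open Polynomial WeierstrassCurve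
open scoped WeierstrassCurve.Affine

namespace Fermat.Agent.S52.H297

open Fermat.Agent.Lib.FrobRel.H230 (frobPt frobPsi IsConstPt)

variable {F : Type*} [Field F] [Fintype F] [DecidableEq F] {W : WeierstrassCurve F}
variable {K : Type*} [Field K] [Algebra F K] [DecidableEq K]
variable {ι : RatFunc F →ₐ[F] K} {y : K}

/-- Frobenius restricted to `M`. -/
noncomputable def frobM (hs : TwistSetup W ι y) (hF : ringChar F ≠ 2) : Msub hs →+ Msub hs :=
  AddMonoidHom.codRestrict ((frobPt W K).comp (Msub hs).subtype) (Msub hs)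
    (fun P => inM_frob hs hF P.2)

/-- the height on `M` -/
noncomputable def hM (hs : TwistSetup W ι y) : Msub hs → ℕ := fun P => ptHt W ι P.1

lemma isParNat_hM (hs : TwistSetup W ι y) (hΔ : W.Δ ≠ 0) :
    Fermat.Agent.S52.H127.IsParNat (hM hs) := by
  have : W.IsElliptic := ⟨isUnit_iff_ne_zero.mpr hΔ⟩
  intro P Q
  exact ptHt_parallelogram hs P.2 Q.2

/-- On `M`, `Φ² - a Φ + q` takes values of height `0`. -/
theorem ptHt_frobPsi (hs : TwistSetup W ι y) (hF : ringChar F ≠ 2) (hΔ : W.Δ ≠ 0)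
    {Q : (W⁄K).Point} (hQ : InM W ι y Q) :
    InM W ι y (frobPsi W K ((Fintype.card F : ℤ) + 1 - (Nat.card W.toAffine.Point : ℤ)) Q) ∧
    ptHt W ι (frobPsi W K ((Fintype.card F : ℤ) + 1 - (Nat.card W.toAffine.Point : ℤ)) Q) = 0 := by
  have key := (isParNat_hM hs hΔ).frobenius_relation (frobM hs hF) (Fintype.card F)
    (Nat.card W.toAffine.Point) (fun P => ptHt_frob P.2) (fun P => ptHt_frob_sub hs hF hΔ P.2)
    ⟨Q, hQ⟩
  have e : ((frobM hs hF (frobM hs hF ⟨Q, hQ⟩)
      - ((Fintype.card F : ℤ) + 1 - (Nat.card W.toAffine.Point : ℤ)) • frobM hs hF ⟨Q, hQ⟩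
      + Fintype.card F • (⟨Q, hQ⟩ : Msub hs) : Msub hs) : (W⁄K).Point)
      = frobPsi W K ((Fintype.card F : ℤ) + 1 - (Nat.card W.toAffine.Point : ℤ)) Q := by
    rw [Fermat.Agent.Lib.FrobRel.H230.frobPsi_apply, natCast_zsmul]
    rfl
  rw [← e]
  exact ⟨Subtype.property _, key⟩

lemma isConstPt_of_ptHt_eq_zero {P : (W⁄K).Point} (hP : InM W ι y P) (h0 : ptHt W ι P = 0) :
    IsConstPt W P := by
  rcases P with _ | ⟨x, v, h⟩
  · exact Or.inl rfl
  · obtain ⟨u, Y, hx, hv⟩ := hP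
    subst hx
    rw [ptHt_some] at h0
    obtain ⟨c, rfl⟩ := exists_C_of_hgt_eq_zero h0
    refine Or.inr ⟨_, _, h, rfl, ?_⟩
    rw [← RatFunc.algebraMap_eq_C, AlgHom.commutes]
    exact isAlgebraic_algebraMap c

/-- **Frobenius relation from a twist setup.** -/
theorem frobPsi_eq_zero_of_setup (hs : TwistSetup W ι y) (hF : ringChar F ≠ 2) (hΔ : W.Δ ≠ 0)
    {L : Type*} [Field L] [Algebra F L] [DecidableEq L] (T : (W⁄L).Point) :
    frobPsi W L ((Fintype.card F : ℤ) + 1 - (Nat.card W.toAffine.Point : ℤ)) T = 0 := by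
  have hΔK : (W⁄K).Δ ≠ 0 := Fermat.Agent.Lib.FrobRel.H230.baseChange_Δ_ne_zero' W hΔ K
  have heq : (W⁄K).Equation (ι RatFunc.X) y := by
    rw [Affine.equation_iff, hs.a₁K, hs.a₃K, a₂K (ι := ι), a₄K (ι := ι), a₆K (ι := ι), hs.hy',
      fRat]
    simp only [map_add, map_mul, map_pow]
    ring
  have hns : (W⁄K).Nonsingular (ι RatFunc.X) y :=
    (Affine.equation_iff_nonsingular_of_Δ_ne_zero hΔK).mp heq
  have hM : InM W ι y (Affine.Point.some _ _ hns) := ⟨RatFunc.X, 1, rfl, by rw [map_one, mul_one]⟩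
  have hx : Transcendental F (ι RatFunc.X) := by
    have h1 : Transcendental F (RatFunc.X : RatFunc F) :=
      transcendental_of_hgt_ne_zero (by rw [hgt_X]; exact one_ne_zero)
    intro halg
    exact h1 ((isAlgebraic_algHom_iff ι (ι : RatFunc F →+* K).injective).mp halg)
  obtain ⟨hmem, hht⟩ := ptHt_frobPsi hs hF hΔ hM
  exact Fermat.Agent.Lib.FrobRel.H230.frobPsi_eq_zero W hΔ hns hx _
    (isConstPt_of_ptHt_eq_zero hmem hht) T

end Fermat.Agent.S52.H297
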