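import Fermat.Agent.S52.H297.MHeight
import Fermat.Agent.Lib.FrobRel.H230Frob

/-!
# Frobenius on `M`: `h ∘ Φ = q h` and `h ∘ (Φ - 1) = #E(F) · h`
-/

set_option autoImplicit false
set_option linter.unusedSectionVars false

open Polynomial WeierstrassCurve
open scoped WeierstrassCurve.Affine

namespace Fermat.Agent.S52.H297

open Fermat.Agent.Lib.FrobRel.H230 (frobPt frobPsi)

section General

variable {F : Type*} [Field F]

lemma hgt_pow (u : RatFunc F) (n : ℕ) : hgt (u ^ n) = n * hgt u := by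
  have hu := RatFunc.num_div_denom u
  have hd := RatFunc.denom_ne_zero u
  have hc := RatFunc.isCoprime_num_denom u
  have e : u ^ n = algebraMap F[X] (RatFunc F) (u.num ^ n)
      / algebraMap F[X] (RatFunc F) (u.denom ^ n) := by
    rw [map_pow, map_pow, ← div_pow, hu]
  rw [e, hgt_div_of_isCoprime (pow_ne_zero n hd) hc.pow, natDegree_pow, natDegree_pow]
  show max _ _ = n * max _ _
  rw [Nat.mul_max_mul_left]

lemma exists_C_of_hgt_eq_zero {u : RatFunc F} (h : hgt u = 0) : ∃ c : F, u = RatFunc.C c := by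
  have h1 : u.num.natDegree = 0 := by
    unfold hgt at h
    omega
  have h2 : u.denom.natDegree = 0 := by
    unfold hgt at h
    omega
  obtain ⟨a, ha⟩ := natDegree_eq_zero.mp h1
  obtain ⟨b, hb⟩ := natDegree_eq_zero.mp h2
  refine ⟨a / b, ?_⟩
  rw [← RatFunc.num_div_denom u, ← ha, ← hb, RatFunc.algebraMap_C, RatFunc.algebraMap_C, map_div₀]

end General

variable {F : Type*} [Field F] [Fintype F] [DecidableEq F] {W : WeierstrassCurve F}
variable {K : Type*} [Field K] [Algebra F K] [DecidableEq K]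
variable {ι : RatFunc F →ₐ[F] K} {y : K}

omit [Algebra F K] in
lemma some_congr_x {WK : Affine K} {x x' v : K} (h : WK.Nonsingular x v) (e : x = x') :
    ∃ h' : WK.Nonsingular x' v, Affine.Point.some x v h = Affine.Point.some x' v h' := by
  subst e
  exact ⟨h, rfl⟩

lemma frobPt_some' {x v : K} (h : (W⁄K).Nonsingular x v) :
    ∃ h' : (W⁄K).Nonsingular (x ^ Fintype.card F) (v ^ Fintype.card F),
      frobPt W K (Affine.Point.some x v h)
        = Affine.Point.some (x ^ Fintype.card F) (v ^ Fintype.card F) h' :=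
  ⟨_, Fermat.Agent.Lib.FrobRel.H230.frobPt_some W K h⟩

lemma y_pow_card (hs : TwistSetup W ι y) (hF : ringChar F ≠ 2) :
    y ^ Fintype.card F = y * ι (fRat W ^ (Fintype.card F / 2)) := by
  have hq := card_eq_two_mul_add_one (F := F) hF
  generalize Fintype.card F / 2 = m at hq
  rw [hq, pow_succ, pow_mul, hs.hy', map_pow]
  ring

lemma inM_frob (hs : TwistSetup W ι y) (hF : ringChar F ≠ 2) {P : (W⁄K).Point}
    (hP : InM W ι y P) : InM W ι y (frobPt W K P) := by
  rcases P with _ | ⟨x, v, h⟩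
  · exact trivial
  · obtain ⟨u, Y, hx, hv⟩ := hP
    refine ⟨u ^ Fintype.card F, fRat W ^ (Fintype.card F / 2) * Y ^ Fintype.card F, ?_, ?_⟩
    · show x ^ Fintype.card F = _
      rw [hx, map_pow]
    · show v ^ Fintype.card F = _
      rw [hv, mul_pow, y_pow_card hs hF]
      simp only [map_mul, map_pow]
      ring

/-- `h (Φ Q) = q · h (Q)` on `M`. -/
theorem ptHt_frob {P : (W⁄K).Point} (hP : InM W ι y P) :
    ptHt W ι (frobPt W K P) = Fintype.card F * ptHt W ι P := by
  rcases P with _ | ⟨x, v, h⟩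
  · show ptHt W ι 0 = _ * ptHt W ι 0
    rw [ptHt_zero, mul_zero]
  · obtain ⟨u, Y, hx, hv⟩ := hP
    subst hx
    rw [ptHt_some]
    have e : ∃ h', frobPt W K (Affine.Point.some (ι u) v h)
        = Affine.Point.some (ι (u ^ Fintype.card F)) (v ^ Fintype.card F) h' := by
      have hx : (ι u) ^ Fintype.card F = ι (u ^ Fintype.card F) := (map_pow ι u _).symm
      obtain ⟨h1, e1⟩ := frobPt_some' (W := W) h
      rw [e1]
      exact some_congr_x _ hx
    obtain ⟨h', e⟩ := e
    rw [e, ptHt_some, hgt_pow]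

lemma pow_card_ne_self {u : RatFunc F} (hu : hgt u ≠ 0) : u ^ Fintype.card F ≠ u := by
  intro e
  apply transcendental_of_hgt_ne_zero hu
  refine ⟨X ^ Fintype.card F - X, FiniteField.X_pow_card_sub_X_ne_zero F Fintype.one_lt_card, ?_⟩
  simp [e]

/-- **Manin's identification**: for `Q = (ι u, v) ∈ W(K)` with `u` non-constant, the
`x`-coordinate of `Φ Q - Q` is `ι (R(u))`, `R` Manin's rational function. -/
theorem frob_sub_some (hs : TwistSetup W ι y) (hF : ringChar F ≠ 2) {u : RatFunc F} {v : K}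
    (h : (W⁄K).Nonsingular (ι u) v) (hu : hgt u ≠ 0) :
    ∃ (v' : K) (h' : (W⁄K).Nonsingular (ι (subst u hu (maninR W.a₂ W.a₄ W.a₆))) v'),
      frobPt W K (Affine.Point.some (ι u) v h) - Affine.Point.some (ι u) v h
        = Affine.Point.some (ι (subst u hu (maninR W.a₂ W.a₄ W.a₆))) v' h' := by
  have hne : (ι u) ^ Fintype.card F ≠ ι u := by
    intro e
    apply pow_card_ne_self hu
    apply (ι : RatFunc F →+* K).injective
    rw [map_pow]
    exact e
  have hD : (ι u) ^ Fintype.card F - ι u ≠ 0 := sub_ne_zero.mpr hne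
  obtain ⟨h1, e1⟩ := frobPt_some' (W := W) h
  rw [e1, sub_eq_add_neg, Affine.Point.neg_some, Affine.Point.add_of_X_ne hne]
  suffices hX : (W⁄K).addX (ι u ^ Fintype.card F) (ι u)
      ((W⁄K).slope (ι u ^ Fintype.card F) (ι u) (v ^ Fintype.card F) ((W⁄K).negY (ι u) v))
      = ι (subst u hu (maninR W.a₂ W.a₄ W.a₆)) from ⟨_, some_congr_x _ hX⟩
  rw [Affine.slope_of_X_ne hne, hs.negY]
  -- the right-hand side
  have hR : ι (subst u hu (maninR W.a₂ W.a₄ W.a₆))
      = (((ι u) ^ 3 + algebraMap F K W.a₂ * (ι u) ^ 2 + algebraMap F K W.a₄ * ι u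
            + algebraMap F K W.a₆)
          * (((ι u) ^ 3 + algebraMap F K W.a₂ * (ι u) ^ 2 + algebraMap F K W.a₄ * ι u
            + algebraMap F K W.a₆) ^ (Fintype.card F / 2) + 1) ^ 2
          - (algebraMap F K W.a₂ + (ι u) ^ Fintype.card F + ι u)
            * ((ι u) ^ Fintype.card F - ι u) ^ 2)
        / ((ι u) ^ Fintype.card F - ι u) ^ 2 := by
    unfold maninR
    rw [subst_div, map_div₀, ← aeval_algHom_apply, ← aeval_algHom_apply]
    simp only [maninNum, maninDen, uPoly, cubic, map_sub, map_mul, map_add, map_pow, aeval_X,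
      aeval_C, map_one]
  rw [hR]
  -- the curve equation
  have hv2 : v ^ 2 = (ι u) ^ 3 + algebraMap F K W.a₂ * (ι u) ^ 2 + algebraMap F K W.a₄ * ι u
      + algebraMap F K W.a₆ := by
    have := (Affine.equation_iff (W := (W⁄K)) (ι u) v).mp h.1
    rw [hs.a₁K, hs.a₃K] at this
    have e2 : (W⁄K).a₂ = algebraMap F K W.a₂ := rfl
    have e4 : (W⁄K).a₄ = algebraMap F K W.a₄ := rfl
    have e6 : (W⁄K).a₆ = algebraMap F K W.a₆ := rfl
    rw [e2, e4, e6] at this
    linear_combination this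
  rw [← hv2]
  have hq := card_eq_two_mul_add_one (F := F) hF
  have hvq : v ^ Fintype.card F - -v = v * ((v ^ 2) ^ (Fintype.card F / 2) + 1) := by
    generalize Fintype.card F / 2 = m at hq
    rw [hq]
    ring
  rw [hvq, Affine.addX, hs.a₁K]
  have e2 : (W⁄K).a₂ = algebraMap F K W.a₂ := rfl
  rw [e2]
  field_simp
  ring

/-- `h (Φ Q - Q) = #E(F) · h (Q)` on `M`. -/
theorem ptHt_frob_sub (hs : TwistSetup W ι y) (hF : ringChar F ≠ 2) (hΔ : W.Δ ≠ 0)
    {Q : (W⁄K).Point} (hQ : InM W ι y Q) :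
    ptHt W ι (frobPt W K Q - Q) = Nat.card W.toAffine.Point * ptHt W ι Q := by
  haveI : W.IsElliptic := ⟨isUnit_iff_ne_zero.mpr hΔ⟩
  rcases Q with _ | ⟨x, v, h⟩
  · show ptHt W ι (frobPt W K 0 - 0) = _ * ptHt W ι 0
    rw [map_zero, sub_zero, ptHt_zero, mul_zero]
  · have hQ' := hQ
    obtain ⟨u, Y, hx, hv⟩ := hQ
    subst hx
    by_cases hu : hgt u = 0
    · rw [ptHt_some, hu, mul_zero]
      obtain ⟨c, rfl⟩ := exists_C_of_hgt_eq_zero hu
      obtain ⟨h1, e1⟩ := frobPt_some' (W := W) h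
      have hxx : (ι (RatFunc.C c)) ^ Fintype.card F = ι (RatFunc.C c) := by
        rw [← map_pow, ← map_pow, FiniteField.pow_card]
      rcases (Affine.Point.X_eq_iff (h₁ := h1) (h₂ := h)).mp hxx with e | e
      · rw [e1, e, sub_self, ptHt_zero]
      · rw [e1, e]
        have hpar := ptHt_parallelogram hs (inM_neg hs hQ') hQ'
        rw [neg_add_cancel, ptHt_zero, ptHt_neg, ptHt_some, hu] at hpar
        omega
    · obtain ⟨v', h', e⟩ := frob_sub_some hs hF h hu
      rw [e, ptHt_some, ptHt_some, hgt_subst, hgt_maninR_eq_card_point hF W hs.a₁ hs.a₃ hΔ]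

end Fermat.Agent.S52.H297
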