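import Fermat.Agent.S52.H297.Count
import Fermat.Agent.Lib.Frob.A2.H720.Parallelogram

/-!
# The group `M` of "anti-invariant" points and its exact height

`F` a field, `W : y² = x³ + a₂x² + a₄x + a₆` over `F` (`a₁ = a₃ = 0`), `K` a field over `F`
with an `F`-embedding `ι : F(X) → K` and an element `y` with `y² = f(X)`.

`M = {O} ∪ {(ι u, y · ι Y) : u, Y ∈ F(X)} ⊆ W(K)` is a subgroup, every point of `M` has an
`x`-coordinate in `ι (F(X))`, the height `ptHt P = hgt u` satisfies the exact parallelogram law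
on `M` (helper720's theorem).
-/

set_option autoImplicit false

open Polynomial WeierstrassCurve
open scoped WeierstrassCurve.Affine

namespace Fermat.Agent.S52.H297

variable {F : Type*} [Field F] (W : WeierstrassCurve F)
variable {K : Type*} [Field K] [Algebra F K]
variable (ι : RatFunc F →ₐ[F] K) (y : K)

/-- Hypotheses: `a₁ = a₃ = 0` and `y² = f(X)` in `K`. -/
structure TwistSetup : Prop where
  a₁ : W.a₁ = 0
  a₃ : W.a₃ = 0
  hy : y ^ 2 = ι (algebraMap F[X] (RatFunc F) (cubic W.a₂ W.a₄ W.a₆))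

/-- membership in `M` -/
def InM : (W⁄K).Point → Prop
  | .zero => True
  | .some x v _ => ∃ u Y : RatFunc F, x = ι u ∧ v = y * ι Y

lemma inM_zero : InM W ι y 0 := trivial

lemma inM_some {x v : K} {h : (W⁄K).Nonsingular x v} :
    InM W ι y (.some x v h) ↔ ∃ u Y : RatFunc F, x = ι u ∧ v = y * ι Y := Iff.rfl

variable {W ι y}

lemma TwistSetup.a₁K (hs : TwistSetup W ι y) : (W⁄K).a₁ = 0 := by
  show algebraMap F K W.a₁ = 0
  rw [hs.a₁, map_zero]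

lemma TwistSetup.a₃K (hs : TwistSetup W ι y) : (W⁄K).a₃ = 0 := by
  show algebraMap F K W.a₃ = 0
  rw [hs.a₃, map_zero]

lemma a₂K : (W⁄K).a₂ = ι (RatFunc.C W.a₂) := by
  show algebraMap F K W.a₂ = _
  rw [← RatFunc.algebraMap_eq_C, AlgHom.commutes]

lemma a₄K : (W⁄K).a₄ = ι (RatFunc.C W.a₄) := by
  show algebraMap F K W.a₄ = _
  rw [← RatFunc.algebraMap_eq_C, AlgHom.commutes]

lemma a₆K : (W⁄K).a₆ = ι (RatFunc.C W.a₆) := by
  show algebraMap F K W.a₆ = _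
  rw [← RatFunc.algebraMap_eq_C, AlgHom.commutes]

lemma TwistSetup.negY (hs : TwistSetup W ι y) (x v : K) : (W⁄K).negY x v = -v := by
  simp only [Affine.negY, hs.a₁K, hs.a₃K]
  ring

/-- the cubic as a rational function -/
noncomputable def fRat (W : WeierstrassCurve F) : RatFunc F :=
  RatFunc.X ^ 3 + RatFunc.C W.a₂ * RatFunc.X ^ 2 + RatFunc.C W.a₄ * RatFunc.X + RatFunc.C W.a₆

lemma fRat_eq (W : WeierstrassCurve F) :
    algebraMap F[X] (RatFunc F) (cubic W.a₂ W.a₄ W.a₆) = fRat W := by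
  simp only [cubic, fRat, map_add, map_mul, map_pow, RatFunc.algebraMap_X, RatFunc.algebraMap_C]

lemma TwistSetup.hy' (hs : TwistSetup W ι y) : y ^ 2 = ι (fRat W) := by
  rw [hs.hy, fRat_eq]

lemma inM_neg (hs : TwistSetup W ι y) {P : (W⁄K).Point} (hP : InM W ι y P) :
    InM W ι y (-P) := by
  rcases P with _ | ⟨x, v, h⟩
  · exact trivial
  · obtain ⟨u, Y, hx, hv⟩ := hP
    refine ⟨u, -Y, hx, ?_⟩
    show (W⁄K).negY x v = y * ι (-Y)
    rw [hs.negY, hv, map_neg]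
    ring

variable [DecidableEq K]

/-- the slope of the chord/tangent through two points of `M` lies in `y · ι(F(X))`. -/
lemma exists_slope (hs : TwistSetup W ι y) {x₁ x₂ v₁ v₂ : K}
    (h₁ : (W⁄K).Nonsingular x₁ v₁) (h₂ : (W⁄K).Nonsingular x₂ v₂)
    (hP : InM W ι y (.some x₁ v₁ h₁)) (hQ : InM W ι y (.some x₂ v₂ h₂))
    (hxy : ¬(x₁ = x₂ ∧ v₁ = (W⁄K).negY x₂ v₂)) :
    ∃ Λ : RatFunc F, (W⁄K).slope x₁ x₂ v₁ v₂ = y * ι Λ := by
  obtain ⟨u₁, Y₁, hx₁, hv₁⟩ := hP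
  obtain ⟨u₂, Y₂, hx₂, hv₂⟩ := hQ
  by_cases hx : x₁ = x₂
  · have hv : v₁ ≠ (W⁄K).negY x₂ v₂ := fun h => hxy ⟨hx, h⟩
    have hvv : v₁ = v₂ := Affine.Y_eq_of_Y_ne h₁.1 h₂.1 hx hv
    rw [Affine.slope_of_Y_ne hx hv, hs.negY, hs.a₁K, a₂K (ι := ι), a₄K (ι := ι)]
    rw [hs.negY, ← hvv] at hv
    have h2v : v₁ - -v₁ ≠ 0 := fun h => hv (by linear_combination h)
    have hv0 : v₁ ≠ 0 := by
      rintro h0
      apply h2v
      rw [h0]; ring
    have hy0 : y ≠ 0 := by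
      rintro h0
      apply hv0
      rw [hv₁, h0, zero_mul]
    have hY0 : ι Y₁ ≠ 0 := by
      rintro h0
      apply hv0
      rw [hv₁, h0, mul_zero]
    have h2 : (2 : K) ≠ 0 := by
      rintro h0
      apply h2v
      linear_combination v₁ * h0
    refine ⟨(3 * u₁ ^ 2 + 2 * RatFunc.C W.a₂ * u₁ + RatFunc.C W.a₄) / (2 * fRat W * Y₁), ?_⟩
    have hf : ι (fRat W) = y ^ 2 := hs.hy'.symm
    simp only [map_div₀, map_add, map_mul, map_pow, map_ofNat, hf, ← hx₁]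
    rw [hv₁]
    have hden : y * ι Y₁ - -(y * ι Y₁) = 2 * y * ι Y₁ := by ring
    rw [hden, zero_mul, sub_zero]
    have hd1 : 2 * y * ι Y₁ ≠ 0 := mul_ne_zero (mul_ne_zero h2 hy0) hY0
    have hd2 : 2 * y ^ 2 * ι Y₁ ≠ 0 := mul_ne_zero (mul_ne_zero h2 (pow_ne_zero 2 hy0)) hY0
    rw [mul_div_assoc', div_eq_div_iff hd1 hd2]
    ring
  · rw [Affine.slope_of_X_ne hx]
    refine ⟨(Y₁ - Y₂) / (u₁ - u₂), ?_⟩
    rw [hx₁, hx₂, hv₁, hv₂, map_div₀, map_sub, map_sub]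
    ring

lemma inM_add (hs : TwistSetup W ι y) {P Q : (W⁄K).Point} (hP : InM W ι y P)
    (hQ : InM W ι y Q) : InM W ι y (P + Q) := by
  rcases P with _ | ⟨x₁, v₁, h₁⟩
  · have : (Affine.Point.zero : (W⁄K).Point) + Q = Q := zero_add Q
    rw [this]; exact hQ
  rcases Q with _ | ⟨x₂, v₂, h₂⟩
  · have : Affine.Point.some x₁ v₁ h₁ + (Affine.Point.zero : (W⁄K).Point)
        = Affine.Point.some x₁ v₁ h₁ := add_zero _
    rw [this]; exact hP
  by_cases hxy : x₁ = x₂ ∧ v₁ = (W⁄K).negY x₂ v₂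
  · rw [Affine.Point.add_of_Y_eq hxy.1 hxy.2]
    exact trivial
  · obtain ⟨Λ, hΛ⟩ := exists_slope hs h₁ h₂ hP hQ hxy
    rw [Affine.Point.add_some hxy]
    obtain ⟨u₁, Y₁, hx₁, hv₁⟩ := hP
    obtain ⟨u₂, Y₂, hx₂, hv₂⟩ := hQ
    have hX : (W⁄K).addX x₁ x₂ ((W⁄K).slope x₁ x₂ v₁ v₂)
        = ι (fRat W * Λ ^ 2 - RatFunc.C W.a₂ - u₁ - u₂) := by
      have hf : ι (fRat W) = y ^ 2 := hs.hy'.symm
      rw [Affine.addX, hΛ, hs.a₁K, a₂K (ι := ι)]
      simp only [map_sub, map_mul, map_pow, hf, hx₁, hx₂]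
      ring
    refine ⟨fRat W * Λ ^ 2 - RatFunc.C W.a₂ - u₁ - u₂,
      -(Λ * (fRat W * Λ ^ 2 - RatFunc.C W.a₂ - u₁ - u₂ - u₁) + Y₁), hX, ?_⟩
    rw [Affine.addY, hs.negY, Affine.negAddY, hX, hΛ, hx₁, hv₁]
    simp only [map_neg, map_add, map_mul, map_sub]
    ring

/-- The subgroup `M` of `W(K)`. -/
def Msub (hs : TwistSetup W ι y) : AddSubgroup (W⁄K).Point where
  carrier := {P | InM W ι y P}
  zero_mem' := trivial
  add_mem' := fun hP hQ => inM_add hs hP hQ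
  neg_mem' := fun hP => inM_neg hs hP

lemma mem_Msub (hs : TwistSetup W ι y) {P : (W⁄K).Point} : P ∈ Msub hs ↔ InM W ι y P := Iff.rfl

end Fermat.Agent.S52.H297
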