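import Fermat.Agent.S52.H297.MGroup

/-!
# The exact height on `M` and the parallelogram law
-/

set_option autoImplicit false

open Polynomial WeierstrassCurve
open scoped WeierstrassCurve.Affine

namespace Fermat.Agent.S52.H297

open Fermat.Agent.Lib.Frob.A2

variable {F : Type*} [Field F] (W : WeierstrassCurve F)
variable {K : Type*} [Field K] [Algebra F K]
variable (ι : RatFunc F →ₐ[F] K) (y : K)

/-- the ring homomorphism `F[X] → K` -/
noncomputable def ιP : F[X] →+* K :=
  (ι : RatFunc F →+* K).comp (algebraMap F[X] (RatFunc F))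

lemma ιP_apply (p : F[X]) : ιP ι p = ι (algebraMap F[X] (RatFunc F) p) := rfl

lemma ιP_injective : Function.Injective (ιP ι) :=
  (ι : RatFunc F →+* K).injective.comp (RatFunc.algebraMap_injective F)

lemma baseCurve_eq : (W⁄K) = H720.baseCurve W (ιP ι) := by
  show W.map (algebraMap F K) = W.map ((ιP ι).comp C)
  congr 1
  ext c
  show algebraMap F K c = ι (algebraMap F[X] (RatFunc F) (C c))
  rw [← algebraMap_eq, ← IsScalarTower.algebraMap_apply, AlgHom.commutes]

open scoped Classical in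
/-- the pullback of the `x`-coordinate to `F(X)` (junk value `0` outside `M`) -/
noncomputable def xInv : (W⁄K).Point → RatFunc F
  | .zero => 0
  | .some x _ _ => if h : ∃ u, ι u = x then h.choose else 0

lemma xInv_some {u : RatFunc F} {v : K} (h : (W⁄K).Nonsingular (ι u) v) :
    xInv W ι (.some (ι u) v h) = u := by
  have hex : ∃ u', ι u' = ι u := ⟨u, rfl⟩
  simp only [xInv, dif_pos hex]
  exact (ι : RatFunc F →+* K).injective hex.choose_spec

/-- a coprime representative of the `x`-coordinate -/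
noncomputable def rep : (W⁄K).Point → F[X] × F[X]
  | .zero => (1, 0)
  | .some x v h => ((xInv W ι (.some x v h)).num, (xInv W ι (.some x v h)).denom)

/-- the height of a point (meaningful on `M`) -/
noncomputable def ptHt (P : (W⁄K).Point) : ℕ := H720.ht (rep W ι P).1 (rep W ι P).2

lemma ptHt_zero : ptHt W ι 0 = 0 := by
  show H720.ht (1 : F[X]) 0 = 0
  simp [H720.ht]

lemma ptHt_some {u : RatFunc F} {v : K} (h : (W⁄K).Nonsingular (ι u) v) :
    ptHt W ι (.some (ι u) v h) = hgt u := by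
  show H720.ht (xInv W ι (.some (ι u) v h)).num (xInv W ι (.some (ι u) v h)).denom = hgt u
  rw [xInv_some]
  rfl

variable {W ι y}

/-- every point of `M` has a coprime representative of its `x`-coordinate. -/
lemma xrep_of_inM {P : (W⁄K).Point} (hP : InM W ι y P) :
    IsCoprime (rep W ι P).1 (rep W ι P).2 ∧
      P.xRep 0 * ιP ι (rep W ι P).2 = P.xRep 1 * ιP ι (rep W ι P).1 := by
  rcases P with _ | ⟨x, v, h⟩
  · refine ⟨isCoprime_one_left, ?_⟩
    show (Affine.Point.xRep (0 : (W⁄K).Point)) 0 * ιP ι 0 = (Affine.Point.xRep (0 : (W⁄K).Point)) 1 * ιP ι 1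
    simp [Affine.Point.xRep_zero]
  · obtain ⟨u, Y, hx, hv⟩ := hP
    subst hx
    show IsCoprime (xInv W ι (.some (ι u) v h)).num (xInv W ι (.some (ι u) v h)).denom ∧
      (Affine.Point.some (ι u) v h).xRep 0 * ιP ι (xInv W ι (.some (ι u) v h)).denom
        = (Affine.Point.some (ι u) v h).xRep 1 * ιP ι (xInv W ι (.some (ι u) v h)).num
    rw [xInv_some]
    refine ⟨RatFunc.isCoprime_num_denom u, ?_⟩
    simp only [Affine.Point.xRep_some, Matrix.cons_val_zero, Matrix.cons_val_one, one_mul, ιP_apply]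
    rw [← map_mul]
    congr 1
    have := RatFunc.num_div_denom u
    rw [div_eq_iff (by simpa using RatFunc.denom_ne_zero u)] at this
    exact this.symm

omit [Algebra F K] in
/-- transport of helper720's parallelogram law along an equality of curves -/
theorem parallelogram_transport [DecidableEq K] [W.IsElliptic] (ι' : F[X] →+* K)
    (hι' : Function.Injective ι') (WK : Affine K) (hWK : WK = H720.baseCurve W ι')
    {P Q : WK.Point} {n₁ d₁ n₂ d₂ n₃ d₃ n₄ d₄ : F[X]}
    (hP : IsCoprime n₁ d₁ ∧ P.xRep 0 * ι' d₁ = P.xRep 1 * ι' n₁)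
    (hQ : IsCoprime n₂ d₂ ∧ Q.xRep 0 * ι' d₂ = Q.xRep 1 * ι' n₂)
    (hadd : IsCoprime n₃ d₃ ∧ (P + Q).xRep 0 * ι' d₃ = (P + Q).xRep 1 * ι' n₃)
    (hsub : IsCoprime n₄ d₄ ∧ (P - Q).xRep 0 * ι' d₄ = (P - Q).xRep 1 * ι' n₄) :
    H720.ht n₃ d₃ + H720.ht n₄ d₄ = 2 * (H720.ht n₁ d₁ + H720.ht n₂ d₂) := by
  subst hWK
  exact H720.parallelogram hι' hP hQ hadd hsub

lemma ptHt_neg (P : (W⁄K).Point) : ptHt W ι (-P) = ptHt W ι P := by
  rcases P with _ | ⟨x, v, h⟩
  · rfl
  · rfl

/-- **Exact parallelogram law on `M`.** -/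
theorem ptHt_parallelogram [DecidableEq K] [W.IsElliptic] (hs : TwistSetup W ι y)
    {P Q : (W⁄K).Point} (hP : InM W ι y P) (hQ : InM W ι y Q) :
    ptHt W ι (P + Q) + ptHt W ι (P - Q) = 2 * ptHt W ι P + 2 * ptHt W ι Q := by
  have hadd : InM W ι y (P + Q) := inM_add hs hP hQ
  have hsub : InM W ι y (P - Q) := by
    rw [sub_eq_add_neg]
    exact inM_add hs hP (inM_neg hs hQ)
  have := parallelogram_transport (W := W) (ιP ι) (ιP_injective ι) (W⁄K) (baseCurve_eq W ι)
    (xrep_of_inM hP) (xrep_of_inM hQ) (xrep_of_inM hadd) (xrep_of_inM hsub)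
  unfold ptHt
  rw [this]
  ring

end Fermat.Agent.S52.H297
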