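import Fermat.Agent.S52.H297.Hgt

/-!
# Manin's counting lemma

Let `F` be a finite field with `q` elements, `q` odd, and `f = X³ + a₂X² + a₄X + a₆` a cubic all of
whose `F`-rational roots are simple.  For the curve `E : y² = f(x)` and the generic point
`P₀ = (x, y)`, the `x`-coordinate of `Frob(P₀) - P₀` is the rational function

  `R = f (f^((q-1)/2) + 1)² / (X^q - X)² - a₂ - X^q - X`.

We prove that the height of `R` (max of degrees of numerator and denominator in lowest terms)
is exactly `1 + #{(x,y) ∈ F² | y² = f(x)}`, i.e. the number of points of `E` over `F`.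
-/

set_option autoImplicit false
set_option linter.unusedSectionVars false

open Polynomial

namespace Fermat.Agent.S52.H297

section Manin

variable {F : Type*} [Field F] [Fintype F] [DecidableEq F]
variable (a₂ a₄ a₆ : F)

/-- the cubic `X³ + a₂X² + a₄X + a₆` -/
noncomputable def cubic : F[X] := X ^ 3 + C a₂ * X ^ 2 + C a₄ * X + C a₆

/-- `u = f^((q-1)/2) + 1` -/
noncomputable def uPoly : F[X] := cubic a₂ a₄ a₆ ^ (Fintype.card F / 2) + 1

/-- numerator of Manin's rational function (before cancellation) -/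
noncomputable def maninNum : F[X] :=
  cubic a₂ a₄ a₆ * uPoly a₂ a₄ a₆ ^ 2
    - (C a₂ + X ^ Fintype.card F + X) * (X ^ Fintype.card F - X) ^ 2

/-- denominator of Manin's rational function (before cancellation) -/
noncomputable def maninDen : F[X] := (X ^ Fintype.card F - X) ^ 2

/-- Manin's rational function: the `x`-coordinate of `Frob P₀ - P₀`. -/
noncomputable def maninR : RatFunc F :=
  algebraMap F[X] (RatFunc F) (maninNum a₂ a₄ a₆) / algebraMap F[X] (RatFunc F) (maninDen (F := F))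

/-- the `F`-rational roots of `f` -/
noncomputable def rootSet : Finset F := Finset.univ.filter fun c => (cubic a₂ a₄ a₆).eval c = 0

/-- the `c ∈ F` with `f(c)` a nonzero square -/
noncomputable def sqSet : Finset F :=
  Finset.univ.filter fun c => (cubic a₂ a₄ a₆).eval c ^ (Fintype.card F / 2) = 1

/-- the `c ∈ F` with `f(c)` a non-square -/
noncomputable def nsSet : Finset F :=
  Finset.univ.filter fun c => (cubic a₂ a₄ a₆).eval c ^ (Fintype.card F / 2) = -1

/-- product of `X - c` over a finset -/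
noncomputable def linProd (s : Finset F) : F[X] := ∏ c ∈ s, (X - C c)

lemma linProd_monic (s : Finset F) : (linProd s).Monic :=
  monic_prod_of_monic _ _ fun c _ => monic_X_sub_C c

lemma linProd_ne_zero (s : Finset F) : linProd s ≠ 0 := (linProd_monic s).ne_zero

lemma natDegree_linProd (s : Finset F) : (linProd s).natDegree = s.card := by
  unfold linProd
  rw [natDegree_prod_of_monic _ _ fun c _ => monic_X_sub_C c]
  simp

lemma eval_linProd_eq_zero {s : Finset F} {c : F} (hc : c ∈ s) : (linProd s).eval c = 0 := by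
  unfold linProd
  rw [eval_prod]
  exact Finset.prod_eq_zero hc (by simp)

lemma eval_linProd_ne_zero {s : Finset F} {c : F} (hc : c ∉ s) : (linProd s).eval c ≠ 0 := by
  unfold linProd
  rw [eval_prod]
  refine Finset.prod_ne_zero_iff.mpr fun d hd => ?_
  simp only [eval_sub, eval_X, eval_C]
  intro h
  exact hc (by rwa [sub_eq_zero.mp h])

lemma linProd_dvd_of_forall_root {s : Finset F} {p : F[X]} (h : ∀ c ∈ s, p.eval c = 0) :
    linProd s ∣ p := by
  unfold linProd
  apply Finset.prod_dvd_of_coprime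
  · intro c _ d _ hcd
    exact pairwise_coprime_X_sub_C (Function.injective_id) hcd
  · intro c hc
    exact dvd_iff_isRoot.mpr (h c hc)

lemma linProd_univ : linProd (Finset.univ : Finset F) = X ^ Fintype.card F - X := by
  have hmonic : (X ^ Fintype.card F - X : F[X]).Monic := by
    apply monic_X_pow_sub
    rw [degree_X]
    exact_mod_cast Fintype.one_lt_card
  have hroots := FiniteField.roots_X_pow_card_sub_X F
  have hcard : Multiset.card (roots (X ^ Fintype.card F - X : F[X]))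
      = (X ^ Fintype.card F - X : F[X]).natDegree := by
    rw [hroots, FiniteField.X_pow_card_sub_X_natDegree_eq F Fintype.one_lt_card]
    simp
  have := prod_multiset_X_sub_C_of_monic_of_roots_card_eq hmonic hcard
  rw [hroots] at this
  rw [← this]
  rfl


/-! ### The partition of `F` -/

variable {a₂ a₄ a₆}

lemma card_eq_two_mul_add_one (hF : ringChar F ≠ 2) :
    Fintype.card F = 2 * (Fintype.card F / 2) + 1 := by
  have := FiniteField.odd_card_of_char_ne_two hF
  omega

lemma half_card_pos (hF : ringChar F ≠ 2) : 0 < Fintype.card F / 2 := by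
  have h1 := FiniteField.odd_card_of_char_ne_two hF
  have h2 : 1 < Fintype.card F := Fintype.one_lt_card
  omega

lemma two_ne_zero_of_char (hF : ringChar F ≠ 2) : (2 : F) ≠ 0 :=
  Ring.two_ne_zero hF

lemma one_ne_neg_one_of_char (hF : ringChar F ≠ 2) : (1 : F) ≠ -1 := by
  intro h
  apply two_ne_zero_of_char hF
  have : (1 : F) + 1 = 0 := by nth_rewrite 2 [h]; simp
  rw [← this]; norm_num

lemma mem_rootSet {c : F} : c ∈ rootSet a₂ a₄ a₆ ↔ (cubic a₂ a₄ a₆).eval c = 0 := by
  simp [rootSet]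

lemma mem_sqSet {c : F} :
    c ∈ sqSet a₂ a₄ a₆ ↔ (cubic a₂ a₄ a₆).eval c ^ (Fintype.card F / 2) = 1 := by
  simp [sqSet]

lemma mem_nsSet {c : F} :
    c ∈ nsSet a₂ a₄ a₆ ↔ (cubic a₂ a₄ a₆).eval c ^ (Fintype.card F / 2) = -1 := by
  simp [nsSet]

lemma disjoint_root_sq (hF : ringChar F ≠ 2) :
    Disjoint (rootSet a₂ a₄ a₆) (sqSet a₂ a₄ a₆) := by
  rw [Finset.disjoint_left]
  intro c h1 h2
  rw [mem_rootSet] at h1
  rw [mem_sqSet, h1, zero_pow (half_card_pos hF).ne'] at h2
  exact zero_ne_one h2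

lemma disjoint_root_ns (hF : ringChar F ≠ 2) :
    Disjoint (rootSet a₂ a₄ a₆) (nsSet a₂ a₄ a₆) := by
  rw [Finset.disjoint_left]
  intro c h1 h2
  rw [mem_rootSet] at h1
  rw [mem_nsSet, h1, zero_pow (half_card_pos hF).ne'] at h2
  have : (1 : F) = 0 := by
    have := congrArg Neg.neg h2
    simpa using this.symm
  exact one_ne_zero this

lemma disjoint_sq_ns (hF : ringChar F ≠ 2) :
    Disjoint (sqSet a₂ a₄ a₆) (nsSet a₂ a₄ a₆) := by
  rw [Finset.disjoint_left]
  intro c h1 h2
  rw [mem_sqSet] at h1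
  rw [mem_nsSet, h1] at h2
  exact one_ne_neg_one_of_char hF h2

lemma union_eq_univ (hF : ringChar F ≠ 2) :
    rootSet a₂ a₄ a₆ ∪ (sqSet a₂ a₄ a₆ ∪ nsSet a₂ a₄ a₆) = Finset.univ := by
  ext c
  simp only [Finset.mem_union, Finset.mem_univ, iff_true, mem_rootSet, mem_sqSet, mem_nsSet]
  by_cases h : (cubic a₂ a₄ a₆).eval c = 0
  · exact Or.inl h
  · exact Or.inr (FiniteField.pow_dichotomy hF h)

lemma card_partition (hF : ringChar F ≠ 2) :
    (rootSet a₂ a₄ a₆).card + (sqSet a₂ a₄ a₆).card + (nsSet a₂ a₄ a₆).card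
      = Fintype.card F := by
  rw [← Finset.card_univ, ← union_eq_univ (a₂ := a₂) (a₄ := a₄) (a₆ := a₆) hF,
    Finset.card_union_of_disjoint, Finset.card_union_of_disjoint (disjoint_sq_ns hF), add_assoc]
  rw [Finset.disjoint_union_right]
  exact ⟨disjoint_root_sq hF, disjoint_root_ns hF⟩

lemma linProd_union {s t : Finset F} (h : Disjoint s t) :
    linProd (s ∪ t) = linProd s * linProd t := by
  unfold linProd
  exact Finset.prod_union h

lemma X_pow_card_sub_X_eq (hF : ringChar F ≠ 2) :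
    (X ^ Fintype.card F - X : F[X]) =
      linProd (rootSet a₂ a₄ a₆) * (linProd (sqSet a₂ a₄ a₆) * linProd (nsSet a₂ a₄ a₆)) := by
  rw [← linProd_univ, ← union_eq_univ (a₂ := a₂) (a₄ := a₄) (a₆ := a₆) hF, linProd_union,
    linProd_union (disjoint_sq_ns hF)]
  rw [Finset.disjoint_union_right]
  exact ⟨disjoint_root_sq hF, disjoint_root_ns hF⟩


/-! ### Degree of the numerator -/

variable (a₂ a₄ a₆)

lemma cubic_pow_card :
    cubic a₂ a₄ a₆ ^ Fintype.card F =
      X ^ (3 * Fintype.card F) + C a₂ * X ^ (2 * Fintype.card F) + C a₄ * X ^ Fintype.card F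
        + C a₆ := by
  rw [← FiniteField.expand_card]
  simp only [cubic, map_add, map_mul, map_pow, expand_X, expand_C, ← pow_mul]
  ring_nf

/-- the lower order part of the numerator -/
noncomputable def maninLow : F[X] :=
  C a₂ * X ^ (2 * Fintype.card F) + C a₄ * X ^ Fintype.card F + C a₆
    + 2 * cubic a₂ a₄ a₆ ^ (Fintype.card F / 2 + 1) + cubic a₂ a₄ a₆
    + X ^ (Fintype.card F + 2) - X ^ 3 - C a₂ * (X ^ Fintype.card F - X) ^ 2

lemma maninNum_eq (hF : ringChar F ≠ 2) :
    maninNum a₂ a₄ a₆ = X ^ (2 * Fintype.card F + 1) + maninLow a₂ a₄ a₆ := by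
  have hfq := cubic_pow_card a₂ a₄ a₆
  have hq := card_eq_two_mul_add_one (F := F) hF
  obtain ⟨m, hm⟩ : ∃ m, Fintype.card F / 2 = m := ⟨_, rfl⟩
  rw [hm] at hq
  unfold maninNum maninLow uPoly
  rw [hm]
  rw [hq] at hfq ⊢
  linear_combination hfq

lemma natDegree_maninLow_le (hF : ringChar F ≠ 2) :
    (maninLow a₂ a₄ a₆).natDegree ≤ 2 * Fintype.card F := by
  have hq := card_eq_two_mul_add_one (F := F) hF
  have hpos := half_card_pos (F := F) hF
  obtain ⟨m, hm⟩ : ∃ m, Fintype.card F / 2 = m := ⟨_, rfl⟩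
  rw [hm] at hq hpos
  unfold maninLow cubic
  rw [hm, hq]
  compute_degree
  all_goals omega

lemma maninNum_monic (hF : ringChar F ≠ 2) : (maninNum a₂ a₄ a₆).Monic := by
  rw [maninNum_eq a₂ a₄ a₆ hF]
  apply monic_X_pow_add
  exact lt_of_le_of_lt (degree_le_of_natDegree_le (natDegree_maninLow_le a₂ a₄ a₆ hF))
    (by exact_mod_cast Nat.lt_succ_self _)

lemma natDegree_maninNum (hF : ringChar F ≠ 2) :
    (maninNum a₂ a₄ a₆).natDegree = 2 * Fintype.card F + 1 := by
  rw [maninNum_eq a₂ a₄ a₆ hF]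
  have h : (maninLow a₂ a₄ a₆).degree < (X ^ (2 * Fintype.card F + 1) : F[X]).degree := by
    rw [degree_X_pow]
    exact lt_of_le_of_lt (degree_le_of_natDegree_le (natDegree_maninLow_le a₂ a₄ a₆ hF))
      (by exact_mod_cast Nat.lt_succ_self _)
  rw [natDegree_add_eq_left_of_degree_lt h, natDegree_X_pow]


/-! ### Factorisation and coprimality -/

variable {a₂ a₄ a₆}

lemma eval_uPoly (c : F) :
    (uPoly a₂ a₄ a₆).eval c = (cubic a₂ a₄ a₆).eval c ^ (Fintype.card F / 2) + 1 := by
  simp [uPoly]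

lemma isCoprime_X_sub_C_of_eval_ne_zero {p : F[X]} {c : F} (h : p.eval c ≠ 0) :
    IsCoprime p (X - C c) := by
  rw [isCoprime_comm, (irreducible_X_sub_C c).coprime_iff_not_dvd, dvd_iff_isRoot]
  exact h

lemma isCoprime_linProd_of_forall_eval_ne_zero {p : F[X]} {s : Finset F}
    (h : ∀ c ∈ s, p.eval c ≠ 0) : IsCoprime p (linProd s) := by
  unfold linProd
  exact IsCoprime.prod_right fun c hc => isCoprime_X_sub_C_of_eval_ne_zero (h c hc)

/-- The explicit factorisation `N = G N'`, `D = G D'` with `N'`, `D'` coprime. -/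
theorem exists_factorization (hF : ringChar F ≠ 2)
    (hsimple : ∀ c : F, (cubic a₂ a₄ a₆).eval c = 0 →
      (derivative (cubic a₂ a₄ a₆)).eval c ≠ 0) :
    ∃ N' D' G : F[X], maninNum a₂ a₄ a₆ = G * N' ∧ maninDen (F := F) = G * D' ∧
      IsCoprime N' D' ∧ G ≠ 0 ∧ D' ≠ 0 ∧
      G.natDegree = (rootSet a₂ a₄ a₆).card + 2 * (nsSet a₂ a₄ a₆).card ∧
      D'.natDegree = (rootSet a₂ a₄ a₆).card + 2 * (sqSet a₂ a₄ a₆).card := by
  obtain ⟨f₁, hf₁⟩ : linProd (rootSet a₂ a₄ a₆) ∣ cubic a₂ a₄ a₆ :=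
    linProd_dvd_of_forall_root fun c hc => mem_rootSet.mp hc
  obtain ⟨u₁, hu₁⟩ : linProd (nsSet a₂ a₄ a₆) ∣ uPoly a₂ a₄ a₆ :=
    linProd_dvd_of_forall_root fun c hc => by
      rw [eval_uPoly, mem_nsSet.mp hc]; ring
  have hX := X_pow_card_sub_X_eq (a₂ := a₂) (a₄ := a₄) (a₆ := a₆) hF
  set PZ := linProd (rootSet a₂ a₄ a₆) with hPZ
  set PS := linProd (sqSet a₂ a₄ a₆) with hPS
  set PN := linProd (nsSet a₂ a₄ a₆) with hPN
  refine ⟨f₁ * u₁ ^ 2 - (C a₂ + X ^ Fintype.card F + X) * PZ * PS ^ 2, PZ * PS ^ 2,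
    PZ * PN ^ 2, ?_, ?_, ?_, ?_, ?_, ?_, ?_⟩
  · unfold maninNum
    rw [hX, hf₁, hu₁]
    ring
  · unfold maninDen
    rw [hX]
    ring
  · -- coprimality
    have hf₁c : ∀ c : F, (cubic a₂ a₄ a₆).eval c ≠ 0 → f₁.eval c ≠ 0 := by
      intro c hc h0
      apply hc
      rw [hf₁, eval_mul, h0, mul_zero]
    have hu₁c : ∀ c : F, (uPoly a₂ a₄ a₆).eval c ≠ 0 → u₁.eval c ≠ 0 := by
      intro c hc h0
      apply hc
      rw [hu₁, eval_mul, h0, mul_zero]
    have hZ : ∀ c ∈ rootSet a₂ a₄ a₆,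
        (f₁ * u₁ ^ 2 - (C a₂ + X ^ Fintype.card F + X) * PZ * PS ^ 2).eval c ≠ 0 := by
      intro c hc
      have hPZc : PZ.eval c = 0 := eval_linProd_eq_zero hc
      have hfc : (cubic a₂ a₄ a₆).eval c = 0 := mem_rootSet.mp hc
      have h1 : f₁.eval c ≠ 0 := by
        intro h0
        apply hsimple c hfc
        rw [hf₁, derivative_mul, eval_add, eval_mul, eval_mul, h0, hPZc]
        ring
      have h2 : u₁.eval c ≠ 0 := by
        apply hu₁c
        rw [eval_uPoly, hfc, zero_pow (half_card_pos hF).ne', zero_add]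
        exact one_ne_zero
      simp only [eval_sub, eval_mul, eval_pow, hPZc, mul_zero, zero_mul, sub_zero]
      exact mul_ne_zero h1 (pow_ne_zero _ h2)
    have hS : ∀ c ∈ sqSet a₂ a₄ a₆,
        (f₁ * u₁ ^ 2 - (C a₂ + X ^ Fintype.card F + X) * PZ * PS ^ 2).eval c ≠ 0 := by
      intro c hc
      have hPSc : PS.eval c = 0 := eval_linProd_eq_zero hc
      have hfc : (cubic a₂ a₄ a₆).eval c ^ (Fintype.card F / 2) = 1 := mem_sqSet.mp hc
      have hfc0 : (cubic a₂ a₄ a₆).eval c ≠ 0 := by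
        intro h0
        rw [h0, zero_pow (half_card_pos hF).ne'] at hfc
        exact zero_ne_one hfc
      have h1 : f₁.eval c ≠ 0 := hf₁c c hfc0
      have h2 : u₁.eval c ≠ 0 := by
        apply hu₁c
        rw [eval_uPoly, hfc]
        have := two_ne_zero_of_char hF
        intro h
        apply this
        rw [← h]; norm_num
      simp only [eval_sub, eval_mul, eval_pow, hPSc, mul_zero, sub_zero, ne_eq,
        OfNat.ofNat_ne_zero, not_false_eq_true, zero_pow]
      exact mul_ne_zero h1 (pow_ne_zero _ h2)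
    exact IsCoprime.mul_right (isCoprime_linProd_of_forall_eval_ne_zero hZ)
      (IsCoprime.pow_right (isCoprime_linProd_of_forall_eval_ne_zero hS))
  · exact mul_ne_zero (linProd_ne_zero _) (pow_ne_zero _ (linProd_ne_zero _))
  · exact mul_ne_zero (linProd_ne_zero _) (pow_ne_zero _ (linProd_ne_zero _))
  · rw [natDegree_mul (linProd_ne_zero _) (pow_ne_zero _ (linProd_ne_zero _)),
      natDegree_pow, natDegree_linProd, natDegree_linProd]
  · rw [natDegree_mul (linProd_ne_zero _) (pow_ne_zero _ (linProd_ne_zero _)),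
      natDegree_pow, natDegree_linProd, natDegree_linProd]

/-- **Manin's counting lemma**, combinatorial form. -/
theorem hgt_maninR (hF : ringChar F ≠ 2)
    (hsimple : ∀ c : F, (cubic a₂ a₄ a₆).eval c = 0 →
      (derivative (cubic a₂ a₄ a₆)).eval c ≠ 0) :
    hgt (maninR a₂ a₄ a₆) = 1 + (rootSet a₂ a₄ a₆).card + 2 * (sqSet a₂ a₄ a₆).card := by
  obtain ⟨N', D', G, hN, hD, hcop, hG, hD', hdG, hdD⟩ := exists_factorization hF hsimple
  have hNne : maninNum a₂ a₄ a₆ ≠ 0 := (maninNum_monic a₂ a₄ a₆ hF).ne_zero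
  have hN' : N' ≠ 0 := by
    rintro rfl
    exact hNne (by rw [hN, mul_zero])
  have hR : maninR a₂ a₄ a₆ =
      algebraMap F[X] (RatFunc F) N' / algebraMap F[X] (RatFunc F) D' := by
    unfold maninR
    rw [hN, hD, map_mul, map_mul]
    have hG' : algebraMap F[X] (RatFunc F) G ≠ 0 := by
      simpa using hG
    exact mul_div_mul_left _ _ hG'
  rw [hR, hgt_div_of_isCoprime hD' hcop]
  have hdeg : (maninNum a₂ a₄ a₆).natDegree = G.natDegree + N'.natDegree := by
    rw [hN, natDegree_mul hG hN']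
  rw [natDegree_maninNum a₂ a₄ a₆ hF] at hdeg
  have hpart := card_partition (a₂ := a₂) (a₄ := a₄) (a₆ := a₆) hF
  rw [hdD]
  omega

end Manin

end Fermat.Agent.S52.H297
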